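import Fermat.Agent.EC.Rep.Tate.Curve
import Fermat.Agent.Arith.Density.Frobenius

/-!
# The determinant of the Tate module is the cyclotomic character
-/

set_option autoImplicit false

open scoped WeierstrassCurve.Affine
open WeierstrassCurve

noncomputable section

namespace Fermat.Agent.EC.Rep

local notation "Q̄" => AlgebraicClosure ℚ
local notation "GQ" => AlgebraicClosure ℚ ≃ₐ[ℚ] AlgebraicClosure ℚ

variable {W : WeierstrassCurve ℤ} {p : ℕ} [Fact p.Prime] (hΔ : W.Δ ≠ 0)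

theorem tateRed_eq_zero_iff (n : ℕ) (v : (tateRep W p hΔ).V) :
    tateRed hΔ n v = 0 ↔
      (v : ℤ_[p] × ℤ_[p]).1 ∈ Ideal.span {(p : ℤ_[p]) ^ n} ∧
        (v : ℤ_[p] × ℤ_[p]).2 ∈ Ideal.span {(p : ℤ_[p]) ^ n} :=
  (tateBasis W p hΔ).red_eq_zero_iff n v

/-- An element fixing the `p ^ n`-torsion has determinant `≡ 1` modulo `p ^ n`. -/
theorem toZModPow_det_tateRep_of_fix {σ : GQ} {n : ℕ}
    (h : ∀ x : PtQ W, (p : ℤ) ^ n • x = 0 → σ • x = x) :
    PadicInt.toZModPow n (LinearMap.det ((tateRep W p hΔ).ρ σ)) = 1 := by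
  let b : Module.Basis (Fin 2) ℤ_[p] (tateRep W p hΔ).V := Module.Basis.finTwoProd ℤ_[p]
  have hker : ∀ i j, PadicInt.toZModPow n
      (LinearMap.toMatrix b b ((tateRep W p hΔ).ρ σ) i j - (1 : Matrix (Fin 2) (Fin 2) ℤ_[p]) i j)
        = 0 := by
    intro i j
    rw [← RingHom.mem_ker, PadicInt.ker_toZModPow]
    have h0 : tateRed hΔ n ((tateRep W p hΔ).ρ σ (b j) - b j) = 0 := by
      rw [map_sub, red_tateRep, h _ (pow_smul_tateRed hΔ n _), sub_self]
    obtain ⟨h1, h2⟩ := (tateRed_eq_zero_iff hΔ n _).mp h0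
    have e : LinearMap.toMatrix b b ((tateRep W p hΔ).ρ σ) i j -
        (1 : Matrix (Fin 2) (Fin 2) ℤ_[p]) i j = b.repr ((tateRep W p hΔ).ρ σ (b j) - b j) i := by
      rw [LinearMap.toMatrix_apply, map_sub, Finsupp.sub_apply, Module.Basis.repr_self,
        Finsupp.single_apply, Matrix.one_apply]
      simp only [eq_comm]
    rw [e]
    fin_cases i
    · exact h1
    · exact h2
  have hmap : (LinearMap.toMatrix b b ((tateRep W p hΔ).ρ σ)).map (PadicInt.toZModPow n) = 1 := by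
    ext i j
    have := hker i j
    rw [map_sub, sub_eq_zero] at this
    rw [Matrix.map_apply, this, Matrix.one_apply, Matrix.one_apply]
    split <;> simp
  rw [← LinearMap.det_toMatrix b, RingHom.map_det, RingHom.mapMatrix_apply, hmap, Matrix.det_one]

/-- The determinant of the Tate module is cyclotomic. -/
theorem detIsCyclotomic_tateRep : (tateRep W p hΔ).DetIsCyclotomic p := by
  refine ⟨by rw [PadicInt.maximalIdeal_eq_span_p]; exact Ideal.mem_span_singleton_self _, ?_⟩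
  intro n σ a ha
  have hp : p.Prime := Fact.out
  have : NeZero (p ^ n) := ⟨pow_ne_zero n hp.ne_zero⟩
  have : (W.map (Int.castRingHom ℚ)).IsElliptic := FrobTrace.isElliptic_map_rat hΔ
  have hn : Nat.card (rootsOfUnity (p ^ n) Q̄) = p ^ n :=
    FrobTrace.card_rootsOfUnity_Qbar (p ^ n)
  set χ : GQ →* (ZMod (p ^ n))ˣ :=
    { toFun := fun τ => Units.map (PadicInt.toZModPow n).toMonoidHom ((tateRep W p hΔ).det τ) /
        modularCyclotomicCharacter Q̄ hn (τ : Q̄ ≃+* Q̄)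
      map_one' := by
        rw [map_one, map_one]
        change 1 / modularCyclotomicCharacter Q̄ hn 1 = 1
        rw [map_one, div_one]
      map_mul' := fun τ τ' => by
        rw [map_mul, map_mul]
        change _ / modularCyclotomicCharacter Q̄ hn ((τ : Q̄ ≃+* Q̄) * (τ' : Q̄ ≃+* Q̄)) = _
        rw [map_mul, mul_div_mul_comm] } with hχdef
  have hχ : ∀ τ : GQ, χ τ = 1 ↔ PadicInt.toZModPow n (LinearMap.det ((tateRep W p hΔ).ρ τ)) =
      ((modularCyclotomicCharacter Q̄ hn (τ : Q̄ ≃+* Q̄) : (ZMod (p ^ n))ˣ) : ZMod (p ^ n)) :=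
    fun τ => by
      show Units.map _ _ / _ = 1 ↔ _
      rw [div_eq_one, Units.ext_iff]
      rfl
  suffices hχ1 : χ = 1 by
    have h1 := (hχ σ).mp (DFunLike.congr_fun hχ1 σ)
    rw [Arith.modularCyclotomicCharacter_eq_natCast hn (c := a) ha,
      ← map_natCast (PadicInt.toZModPow n) a, ← sub_eq_zero, ← map_sub, ← RingHom.mem_ker,
      PadicInt.ker_toZModPow] at h1
    push_cast
    exact h1
  obtain ⟨L, hLfin, hL⟩ := Torsion.galoisFactorsThroughFiniteLevel_galoisRepModuleEnd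
    (W.map (Int.castRingHom ℚ)) (n := p ^ n) (pow_ne_zero n hp.ne_zero)
  obtain ⟨ζ, hζ⟩ : ∃ ζ : Q̄, IsPrimitiveRoot ζ (p ^ n) :=
    HasEnoughRootsOfUnity.exists_primitiveRoot Q̄ (p ^ n)
  let L' : IntermediateField ℚ Q̄ := L ⊔ IntermediateField.adjoin ℚ {ζ}
  have : FiniteDimensional ℚ (IntermediateField.adjoin ℚ ({ζ} : Set Q̄)) :=
    IntermediateField.adjoin.finiteDimensional (Algebra.IsIntegral.isIntegral ζ)
  have : FiniteDimensional ℚ L' := IntermediateField.finiteDimensional_sup _ _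
  refine Arith.Density.eq_one_of_frobenius χ L' (fun τ hτ => ?_)
    (insert p W.Δ.natAbs.primeFactors) ?_
  · rw [hχ, toZModPow_det_tateRep_of_fix hΔ fun x hx => congrArg Subtype.val (LinearMap.congr_fun
      (hL τ fun z hz => hτ z ((le_sup_left : L ≤ L') hz))
      ⟨x, by rw [Submodule.mem_torsionBy_iff]; push_cast; exact hx⟩),
      Arith.modularCyclotomicCharacter_eq_natCast hn (c := 1) fun t ht => by
        obtain ⟨i, -, rfl⟩ := hζ.eq_pow_of_pow_eq_one ht
        rw [pow_one, map_pow]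
        exact congrArg (· ^ i) (hτ ζ ((le_sup_right : IntermediateField.adjoin ℚ {ζ} ≤ L')
          (IntermediateField.subset_adjoin ℚ _ (Set.mem_singleton ζ)))),
      Nat.cast_one]
  · intro ℓ hℓ hℓS A hA τ hτ
    rw [Finset.mem_insert, not_or] at hℓS
    have hgood : W.IsGoodPrimeFor ℓ := fun hdvd => hℓS.2
      (Nat.mem_primeFactors.mpr ⟨hℓ, Int.natCast_dvd.mp hdvd, Int.natAbs_ne_zero.mpr hΔ⟩)
    have hndvd : ¬ ℓ ∣ p ^ n := fun h =>
      hℓS.1 ((Nat.prime_dvd_prime_iff_eq hℓ hp).mp (hℓ.dvd_of_dvd_pow h))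
    rw [hχ, (tateRep_trace_det_frobenius hΔ hℓ hgood hℓS.1 hA hτ).2,
      Arith.modularCyclotomicCharacter_frobenius hA hℓ hτ hn hndvd, map_natCast]

end Fermat.Agent.EC.Rep
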