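import Fermat.Agent.EC.FrobTrace.Main

/-!
# Frobenius is not a scalar on the Tate module

At a prime `ℓ` of good reduction a Frobenius element cannot act as a scalar on the `p ^ j`-torsion
for every `j`: the degree bound for `φ - r` and the Hasse bound forbid it.
-/

set_option autoImplicit false

open scoped WeierstrassCurve.Affine
open WeierstrassCurve

namespace Fermat.Agent.EC.Rep

open FrobTrace

/-- A bound on kernels of `φ - r` prevents `φ` from being a scalar on all levels. -/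
theorem exists_level_not_scalar {A : Type*} [AddCommGroup A] (φ : A →+ A) {a d : ℤ} {p : ℕ}
    (hp : p.Prime) (hne : ∀ r : ℤ, r ^ 2 - a * r + d ≠ 0)
    (hker : ∀ r : ℤ, r ^ 2 - a * r + d ≠ 0 → ∀ s : Finset A, (∀ P ∈ s, φ P = r • P) →
      (s.card : ℤ) ≤ 2 * (r ^ 2 - a * r + d))
    (htor : ∀ j : ℕ, ∃ s : Finset A,
      (∀ P ∈ s, ((p : ℤ) ^ j) • P = 0) ∧ s.card = (p ^ j) ^ 2) :
    ∃ j : ℕ, ¬ ∃ r₀ : ℤ, ∀ P : A, ((p : ℤ) ^ j) • P = 0 → φ P = r₀ • P := by
  obtain ⟨j, hj⟩ : ∃ j : ℕ, 4 * (a.natAbs + d.natAbs + 1) < p ^ (j + 1) :=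
    ⟨_, lt_trans (Nat.lt_two_pow_self.trans_le (Nat.pow_le_pow_left hp.two_le _))
      (Nat.pow_lt_pow_right hp.one_lt (Nat.lt_succ_self _))⟩
  refine ⟨j + 1, fun ⟨r₀, hr₀φ⟩ => ?_⟩
  set P : ℤ := (p : ℤ) ^ (j + 1) with hP
  have hPpos : 0 < P := pow_pos (by exact_mod_cast hp.pos) _
  set r := Int.bmod r₀ (p ^ (j + 1)) with hr
  have hdvd : P ∣ r - r₀ := by
    rw [hP, show ((p : ℤ) ^ (j + 1)) = ((p ^ (j + 1) : ℕ) : ℤ) by push_cast; rfl]
    exact Int.dvd_bmod_sub_self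
  obtain ⟨s, hs, hcard⟩ := htor (j + 1)
  have hle := hker r (hne r) s fun Q hQ => by
    obtain ⟨e, he⟩ := hdvd
    have h0 : P • Q = 0 := hs Q hQ
    rw [hr₀φ Q h0, show r = r₀ + e * P by linear_combination he, add_smul, mul_smul, h0,
      smul_zero, add_zero]
  rw [hcard] at hle
  push_cast at hle
  rw [← hP] at hle
  have hb1 : 2 * r ≤ P + 1 ∧ -P - 1 ≤ 2 * r := by
    have h1 := Int.bmod_le (x := r₀) (m := p ^ (j + 1)) (pow_pos hp.pos _)
    have h2 := Int.le_bmod (x := r₀) (m := p ^ (j + 1)) (pow_pos hp.pos _)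
    rw [← hr] at h1 h2
    push_cast at h1 h2
    rw [← hP] at h1 h2
    omega
  have hbig : 4 * ((a.natAbs : ℤ) + d.natAbs + 1) < P := by
    rw [hP]; exact_mod_cast hj
  have hd : d ≤ d.natAbs := Int.le_natAbs
  have hA1 : a ≤ a.natAbs := Int.le_natAbs
  have hA2 : -a ≤ a.natAbs := by rw [← Int.natAbs_neg]; exact Int.le_natAbs
  have hA0 : 0 ≤ (a.natAbs : ℤ) := Int.natCast_nonneg _
  have hD0 : 0 ≤ (d.natAbs : ℤ) := Int.natCast_nonneg _
  nlinarith [mul_nonneg (by linarith : (0 : ℤ) ≤ P + 1 - 2 * r)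
      (by linarith : (0 : ℤ) ≤ P + 1 + 2 * r),
    mul_nonneg (by linarith : (0 : ℤ) ≤ P + 1 - 2 * r) (by linarith : (0 : ℤ) ≤ a.natAbs - a),
    mul_nonneg (by linarith : (0 : ℤ) ≤ P + 1 + 2 * r) (by linarith : (0 : ℤ) ≤ a.natAbs + a),
    mul_nonneg (by linarith : (0 : ℤ) ≤ P + 1)
      (by linarith : (0 : ℤ) ≤ P - 4 * ((a.natAbs : ℤ) + d.natAbs + 1))]

/-- For a prime `d` and `a ^ 2 ≤ 4 * d` the polynomial `x ^ 2 - a x + d` has no integral root. -/
theorem quadratic_ne_zero_of_prime {a : ℤ} {d : ℕ} (hd : d.Prime) (h : a ^ 2 ≤ 4 * d) (r : ℤ) :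
    r ^ 2 - a * r + d ≠ 0 := by
  intro h0
  have h1 : (2 * r - a) ^ 2 = 0 := le_antisymm (by nlinarith) (sq_nonneg _)
  have h2 : 2 * r - a = 0 := pow_eq_zero_iff two_ne_zero |>.mp h1
  have h3 : r ^ 2 = (d : ℤ) := by rw [show a = 2 * r by linarith] at h0; linarith
  have h4 : r.natAbs ^ 2 = d := by
    have : ((r.natAbs ^ 2 : ℕ) : ℤ) = (d : ℤ) := by push_cast; rw [sq_abs, h3]
    exact_mod_cast this
  exact Nat.Prime.not_prime_pow le_rfl (h4 ▸ hd)

variable {A : ValuationSubring (AlgebraicClosure ℚ)} {ℓ : ℕ}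
  {σ : AlgebraicClosure ℚ ≃ₐ[ℚ] AlgebraicClosure ℚ}

/-- A Frobenius element at a good prime `ℓ ≠ p` is not a scalar on some `p ^ j`-torsion. -/
theorem frobenius_exists_level_not_scalar (W : WeierstrassCurve ℤ) {p : ℕ} (hℓ : ℓ.Prime)
    (hgood : W.IsGoodPrimeFor ℓ) (hA : A.LiesOverPrime ℓ) (hσ : A.IsFrobeniusAt σ ℓ)
    (hp : p.Prime) (hne : ℓ ≠ p) :
    ∃ j : ℕ, ¬ ∃ r : ℤ, ∀ P : ((W.map (Int.castRingHom ℚ))⁄(AlgebraicClosure ℚ)).Point,
      ((p : ℤ) ^ j) • P = 0 → σ • P = r • P := by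
  classical
  have := Fact.mk hℓ
  set R := IsLocalRing.ResidueField A
  have : CharP R ℓ := Arith.residueField_charP hA hℓ
  let _ : Algebra (ZMod ℓ) R := ZMod.algebra R ℓ
  have : IsAlgClosed R := Arith.residueField_isAlgClosed A
  have : Algebra.IsAlgebraic (ZMod ℓ) R := ⟨fun z => by
    obtain ⟨x, hx, hxz⟩ := Arith.exists_integral_residue hA hℓ z
    obtain ⟨f, hf, hfx⟩ := hx
    refine IsIntegral.isAlgebraic ⟨f.map (Int.castRingHom (ZMod ℓ)), hf.map _, ?_⟩
    rw [Polynomial.eval₂_map, ← hxz]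
    rw [show (algebraMap (ZMod ℓ) R).comp (Int.castRingHom (ZMod ℓ)) =
      (IsLocalRing.residue A).comp (Int.castRingHom A) from RingHom.ext_int _ _,
      ← Polynomial.hom_eval₂]
    rw [show f.eval₂ (Int.castRingHom A) ⟨x, Arith.mem_of_isIntegral A ⟨f, hf, hfx⟩⟩ = 0 from ?_,
      map_zero]
    apply A.subtype_injective
    rw [Polynomial.hom_eval₂, map_zero,
      RingHom.ext_int (A.subtype.comp _) (algebraMap ℤ (AlgebraicClosure ℚ))]
    exact hfx⟩
  have : (W.reductionMod ℓ).IsElliptic := ⟨by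
    rw [isUnit_iff_ne_zero, WeierstrassCurve.reductionMod, WeierstrassCurve.map_Δ]
    exact fun h => hgood ((ZMod.intCast_zmod_eq_zero_iff_dvd _ _).mp h)⟩
  set V := W.reductionMod ℓ with hVdef
  have hndvd : ¬ ℓ ∣ p := fun h => hne ((Nat.prime_dvd_prime_iff_eq hℓ hp).mp h)
  have hpR : ∀ j, ((p ^ j : ℕ) : R) ≠ 0 := fun j => by
    push_cast
    exact pow_ne_zero _ fun h0 => hndvd ((CharP.cast_eq_zero_iff R ℓ p).mp h0)
  have hnz : ∀ r : ℤ, r ^ 2 - frobTraceInt V * r + (Fintype.card (ZMod ℓ) : ℤ) ≠ 0 := fun r => by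
    have h := frobTraceInt_sq_le V
    rw [ZMod.card] at h ⊢
    exact quadratic_ne_zero_of_prime hℓ h r
  obtain ⟨j, hj⟩ := exists_level_not_scalar (frobPoint V R) hp hnz
    (fun r hr s hs => card_kernel_le V r hr s hs) (fun j => by
      have : Finite (Submodule.torsionBy ℤ (V⁄R).Point (p ^ j : ℕ)) :=
        Torsion.finite_torsionBy (V⁄R) (hpR j)
      have hfin := Set.toFinite (Submodule.torsionBy ℤ (V⁄R).Point (p ^ j : ℕ) : Set (V⁄R).Point)
      refine ⟨hfin.toFinset, fun P hP => ?_, ?_⟩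
      · rw [Set.Finite.mem_toFinset, SetLike.mem_coe, Submodule.mem_torsionBy_iff] at hP
        push_cast at hP
        exact hP
      · rw [← Set.ncard_eq_toFinset_card _ hfin, ← Nat.card_coe_set_eq]
        exact Torsion.natCard_torsionBy (V⁄R) (hpR j))
  refine ⟨j, fun ⟨r, hr⟩ => hj ⟨r, fun P hP => ?_⟩⟩
  -- transport along reduction
  have hV : (V⁄R) = (W⁄R) := by
    show (W.map _).map _ = W.map _
    rw [WeierstrassCurve.map_map]
    exact congr_arg W.map (RingHom.ext_int _ _)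
  have h : Reduction.ReducesTo A ((W.map (Int.castRingHom ℚ))⁄(AlgebraicClosure ℚ))
      (W⁄R).toAffine := Reduction.reducesTo_int W A
  have hE0 : ∀ P, Reduction.InE0 A (W⁄R).toAffine P := Reduction.inE0_of_good hA hℓ hgood
  have key : ∀ P : (W⁄R).Point, (p : ℤ) ^ j • P = 0 →
      Affine.Point.map (W' := W) (Reduction.residualFrobenius hA hℓ) P = r • P := by
    intro P hP
    set red : ((W.map (Int.castRingHom ℚ))⁄(AlgebraicClosure ℚ)).Point →+ (W⁄R).Point :=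
      { toFun := Reduction.redFun A (W⁄R).toAffine
        map_zero' := Reduction.redFun_zero
        map_add' := fun P Q => (h.add_spec (hE0 P) (hE0 Q)).2 }
    have hdj : ¬ ℓ ∣ p ^ j := fun h' => hndvd (hℓ.dvd_of_dvd_pow h')
    have hinj : ∀ P, (p : ℤ) ^ j • P = 0 → red P = 0 → P = 0 := fun P hP hr =>
      h.eq_of_redFun_eq (Reduction.valuation_natCast_eq_one hA hℓ hdj) (hE0 P) (hE0 0)
        (by rw [← natCast_zsmul]; push_cast; exact hP) (smul_zero _) hr
    have : (W.map (Int.castRingHom ℚ)).IsElliptic :=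
      isElliptic_map_rat (Δ_ne_zero_of_isGoodPrimeFor hgood)
    have : (W⁄R).toAffine.IsElliptic :=
      ⟨isUnit_iff_ne_zero.mpr (Reduction.residual_Δ_ne_zero hA hℓ hgood)⟩
    have := Torsion.finite_torsionBy (W⁄R) (hpR j)
    have hmem : ∀ {G : Type} [AddCommGroup G] (x : G),
        x ∈ Submodule.torsionBy ℤ G (p ^ j : ℕ) ↔ (p : ℤ) ^ j • x = 0 := fun x => by
      rw [Submodule.mem_torsionBy_iff]; push_cast; rfl
    let f : Submodule.torsionBy ℤ
        ((W.map (Int.castRingHom ℚ))⁄(AlgebraicClosure ℚ)).Point (p ^ j : ℕ) →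
        Submodule.torsionBy ℤ (W⁄R).Point (p ^ j : ℕ) := fun x => ⟨red x, by
      rw [hmem, ← map_zsmul, (hmem _).mp x.2, map_zero]⟩
    have hf : Function.Injective f := fun x x' e => Subtype.ext (sub_eq_zero.mp (hinj _
      ((hmem _).mp (Submodule.sub_mem _ x.2 x'.2))
      (by rw [map_sub]; exact sub_eq_zero.mpr (congrArg Subtype.val e))))
    have hb : Function.Bijective f := (Nat.bijective_iff_injective_and_card f).mpr ⟨hf, by
      rw [Torsion.natCard_torsionBy_algebraicClosureRat (W.map (Int.castRingHom ℚ))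
          (pow_ne_zero j hp.ne_zero), Torsion.natCard_torsionBy (W⁄R) (hpR j)]⟩
    obtain ⟨x, hx⟩ := hb.2 ⟨P, (hmem P).mpr hP⟩
    have hxP : red x = P := congrArg Subtype.val hx
    rw [← hxP, ← map_zsmul, ← hr _ ((hmem _).mp x.2)]
    exact (Reduction.redFun_frobenius W hA hℓ hσ _).symm
  have hgen : ∀ (U : WeierstrassCurve.Affine R), (W⁄R).toAffine = U →
      ∀ F : U.Point →+ U.Point, (∀ (x y : R) (hxy : U.Nonsingular x y), ∃ h',
        F (.some x y hxy) = .some (x ^ ℓ) (y ^ ℓ) h') →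
      ∀ P : U.Point, (p : ℤ) ^ j • P = 0 → F P = r • P := by
    rintro U rfl F hF P hP
    rw [← key P hP]
    rcases P with _ | ⟨x, y, hxy⟩
    · rw [← Affine.Point.zero_def, map_zero, map_zero]
    · obtain ⟨h', e⟩ := hF x y hxy
      rw [e, Affine.Point.map_some]
      rfl
  refine hgen _ hV.symm _ (fun x y hxy => ?_) P hP
  refine ⟨by
    have := ((V.toAffine).baseChange_nonsingular
      (f := FiniteField.frobeniusAlgHom (ZMod ℓ) R) (RingHom.injective _) x y).mpr hxy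
    simpa using this, ?_⟩
  rw [frobPoint, Affine.Point.map_some]
  simp

end Fermat.Agent.EC.Rep
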