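import Fermat.Agent.EC.Rep.Residual
import Fermat.Agent.EC.Rep.Tate.Generic
import Fermat.Agent.EC.Rep.Tate.NotScalar
import Mathlib.LinearAlgebra.Matrix.Charpoly.Coeff

/-!
# The `p`-adic representation of an elliptic curve

`tateRep W p hΔ` is the action of the absolute Galois group on the Tate module of an integral
model, as a representation on `ℤ_[p] × ℤ_[p]`.
-/

set_option autoImplicit false

open scoped WeierstrassCurve.Affine
open WeierstrassCurve Polynomial

noncomputable section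

namespace Fermat.Agent.EC.Rep

local notation "Q̄" => AlgebraicClosure ℚ
local notation "GQ" => AlgebraicClosure ℚ ≃ₐ[ℚ] AlgebraicClosure ℚ

variable (W : WeierstrassCurve ℤ)

/-- The points over `AlgebraicClosure ℚ` of an integral model. -/
abbrev PtQ : Type := ((W.map (Int.castRingHom ℚ))⁄(AlgebraicClosure ℚ)).Point

variable (p : ℕ) [Fact p.Prime]

/-- The compatible bases used for the Tate module, starting with a basis of `E[p]`. -/
theorem exists_curve_tateBasis (hΔ : W.Δ ≠ 0) : ∃ (B : TateBasis (PtQ W) p)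
    (b : Module.Basis (Fin 2) (ZMod p) (residualRep W p hΔ).V),
    B.P 1 = Subtype.val (b 0) ∧ B.Q 1 = Subtype.val (b 1) := by
  classical
  have hp : p.Prime := Fact.out
  have : (W.map (Int.castRingHom ℚ)).IsElliptic := FrobTrace.isElliptic_map_rat hΔ
  let b := Module.finBasisOfFinrankEq (ZMod p) (residualRep W p hΔ).V
    (residualRep W p hΔ).finrank_eq
  have htor : ∀ v : (residualRep W p hΔ).V, (p : ℤ) • (Subtype.val v : PtQ W) = 0 := fun v =>
    (Submodule.mem_torsionBy_iff _ _).mp v.2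
  obtain ⟨B, hB⟩ := exists_tateBasis (A := PtQ W) (p := p)
    (fun x => by
      obtain ⟨y, hy⟩ := Torsion.exists_nsmul_eq
        ((W.map (Int.castRingHom ℚ))⁄Q̄).toAffine hp.ne_zero x
      exact ⟨y, by rw [natCast_zsmul]; exact hy⟩)
    (fun n => Torsion.natCard_torsionBy_algebraicClosureRat _ (pow_ne_zero n hp.ne_zero))
    (htor (b 0)) (htor (b 1)) (fun a c h => by
      have h1 : (a : ZMod p) • b 0 + (c : ZMod p) • b 1 = 0 := by
        rw [Int.cast_smul_eq_zsmul, Int.cast_smul_eq_zsmul]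
        exact Subtype.ext h
      have h2 := Fintype.linearIndependent_iff.mp b.linearIndependent ![(a : ZMod p), (c : ZMod p)]
        (by simpa [Fin.sum_univ_two] using h1)
      exact ⟨(ZMod.intCast_zmod_eq_zero_iff_dvd _ _).mp (h2 0),
        (ZMod.intCast_zmod_eq_zero_iff_dvd _ _).mp (h2 1)⟩)
  exact ⟨B, b, hB⟩

variable (hΔ : W.Δ ≠ 0)

/-- The chosen compatible bases. -/
def tateBasis : TateBasis (PtQ W) p := (exists_curve_tateBasis W p hΔ).choose

open IsLocalRing in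
/-- The `p`-adic representation on the Tate module. -/
def tateRep : GaloisRepAdic ℤ_[p] where
  V := ℤ_[p] × ℤ_[p]
  finrank_eq := by rw [Module.finrank_prod, Module.finrank_self]
  ρ := (tateBasis W p hΔ).act GQ
  isAdicContinuous := fun n => by
    have : (W.map (Int.castRingHom ℚ)).IsElliptic := FrobTrace.isElliptic_map_rat hΔ
    obtain ⟨L, hLfin, hL⟩ := Torsion.galoisFactorsThroughFiniteLevel_galoisRepModuleEnd
      (W.map (Int.castRingHom ℚ)) (n := p ^ n) (pow_ne_zero n (Fact.out : p.Prime).ne_zero)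
    refine ⟨L, hLfin, fun σ hσ v => ?_⟩
    rw [PadicInt.maximalIdeal_eq_span_p, Ideal.span_singleton_pow]
    refine (tateBasis W p hΔ).act_sub_mem_of_fix (fun x hx => ?_) v
    exact congrArg Subtype.val (LinearMap.congr_fun (hL σ hσ)
      ⟨x, by rw [Submodule.mem_torsionBy_iff]; push_cast; exact hx⟩)

variable {W p}

/-- The projection of the Tate module onto the `p ^ n`-torsion. -/
def tateRed (n : ℕ) : (tateRep W p hΔ).V →+ PtQ W := (tateBasis W p hΔ).red n

theorem red_tateRep (σ : GQ) (n : ℕ) (v : (tateRep W p hΔ).V) :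
    tateRed hΔ n ((tateRep W p hΔ).ρ σ v) = σ • tateRed hΔ n v :=
  (tateBasis W p hΔ).red_act σ n v

theorem pow_smul_tateRed (n : ℕ) (v : (tateRep W p hΔ).V) :
    (p : ℤ) ^ n • tateRed hΔ n v = 0 :=
  (tateBasis W p hΔ).pow_smul_red n v

theorem tateRed_smul {n : ℕ} {c : ℤ_[p]} {a : ℤ}
    (h : c - a ∈ Ideal.span {(p : ℤ_[p]) ^ n}) (v : (tateRep W p hΔ).V) :
    tateRed hΔ n (c • v) = a • tateRed hΔ n v :=
  (tateBasis W p hΔ).red_smul_of_sub_mem h v

theorem exists_tateRed_eq (n : ℕ) {x : PtQ W} (hx : (p : ℤ) ^ n • x = 0) :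
    ∃ v : (tateRep W p hΔ).V, tateRed hΔ n v = x :=
  (tateBasis W p hΔ).exists_red n hx

theorem tateRed_eq_zero_of_forall {v : (tateRep W p hΔ).V} (h : ∀ n, tateRed hΔ n v = 0) :
    v = 0 :=
  (tateBasis W p hΔ).eq_zero_of_forall_red h

theorem tateRep_eq_one {σ : GQ}
    (h : ∀ n, ∀ x : PtQ W, (p : ℤ) ^ n • x = 0 → σ • x = x) : (tateRep W p hΔ).ρ σ = 1 :=
  (tateBasis W p hΔ).act_eq_one_of_fix h

theorem isUnramifiedAt_tateRep {q : ℕ} (hq : q.Prime) (hgood : W.IsGoodPrimeFor q)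
    (hqp : q ≠ p) : (tateRep W p hΔ).IsUnramifiedAt q := fun A hA σ hσ =>
  tateRep_eq_one hΔ fun n x hx => by
    refine Reduction.smul_eq_self_of_inE0 W hA hq hσ (n := p ^ n) (fun h => hqp ?_)
      (Reduction.inE0_of_good hA hq hgood x) ?_
    · exact (Nat.prime_dvd_prime_iff_eq hq Fact.out).mp (hq.dvd_of_dvd_pow h)
    · rw [← natCast_zsmul]; push_cast; exact hx

/-- Frobenius satisfies its quadratic equation on all torsion of order prime to `ℓ`. -/
theorem frobenius_quadratic_torsion {A : ValuationSubring Q̄} {ℓ : ℕ} (hℓ : ℓ.Prime)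
    (hgood : W.IsGoodPrimeFor ℓ) (hA : A.LiesOverPrime ℓ) {σ : GQ} (hσ : A.IsFrobeniusAt σ ℓ)
    {n : ℕ} (hn : ¬ ℓ ∣ n) (x : PtQ W) (hx : (n : ℤ) • x = 0) :
    σ • (σ • x) - W.apOfModel ℓ • (σ • x) + (ℓ : ℤ) • x = 0 := by
  classical
  set R := IsLocalRing.ResidueField A
  set V : WeierstrassCurve.Affine R := W⁄R
  have h : Reduction.ReducesTo A ((W.map (Int.castRingHom ℚ))⁄Q̄) V :=
    Reduction.reducesTo_int W A
  have hE0 : ∀ P, Reduction.InE0 A V P := Reduction.inE0_of_good hA hℓ hgood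
  set red : PtQ W →+ (W⁄R).Point :=
    { toFun := Reduction.redFun A V
      map_zero' := Reduction.redFun_zero
      map_add' := fun P Q => (h.add_spec (hE0 P) (hE0 Q)).2 }
  have hsm : ∀ P, red (σ • P) =
      Affine.Point.map (W' := W) (Reduction.residualFrobenius hA hℓ) (red P) :=
    fun P => Reduction.redFun_frobenius W hA hℓ hσ P
  have hy : (n : ℤ) • (σ • (σ • x) - W.apOfModel ℓ • (σ • x) + (ℓ : ℤ) • x) = 0 := by
    have hc : ∀ y : PtQ W, (n : ℤ) • y = 0 → (n : ℤ) • (σ • y) = 0 := fun y hy => by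
      rw [← Affine.Point.algEquiv_smul_zsmul, hy, smul_zero]
    rw [zsmul_add, zsmul_sub, smul_comm (n : ℤ) (W.apOfModel ℓ), smul_comm (n : ℤ) (ℓ : ℤ),
      hc _ (hc x hx), hc x hx, hx, zsmul_zero, zsmul_zero, sub_zero, add_zero]
  refine h.eq_of_redFun_eq (Reduction.valuation_natCast_eq_one hA hℓ hn) (hE0 _) (hE0 0)
    (by rw [← natCast_zsmul]; exact hy) (smul_zero _) ?_
  refine Eq.trans ?_ (map_zero red).symm
  show red (σ • (σ • x) - W.apOfModel ℓ • (σ • x) + (ℓ : ℤ) • x) = 0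
  rw [map_add, map_sub, map_zsmul, map_zsmul, hsm, hsm]
  exact (FrobTrace.residual_frobenius_facts W hA hℓ hgood).1 _

theorem tateRep_frobenius_quadratic {A : ValuationSubring Q̄} {ℓ : ℕ} (hℓ : ℓ.Prime)
    (hgood : W.IsGoodPrimeFor ℓ) (hne : ℓ ≠ p) (hA : A.LiesOverPrime ℓ) {σ : GQ}
    (hσ : A.IsFrobeniusAt σ ℓ) (v : (tateRep W p hΔ).V) :
    (tateRep W p hΔ).ρ σ ((tateRep W p hΔ).ρ σ v) -
      (W.apOfModel ℓ : ℤ_[p]) • (tateRep W p hΔ).ρ σ v + (ℓ : ℤ_[p]) • v = 0 := by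
  refine tateRed_eq_zero_of_forall hΔ fun n => ?_
  have hn : ¬ ℓ ∣ p ^ n := fun h =>
    hne ((Nat.prime_dvd_prime_iff_eq hℓ Fact.out).mp (hℓ.dvd_of_dvd_pow h))
  rw [map_add, map_sub, Int.cast_smul_eq_zsmul, Nat.cast_smul_eq_nsmul, map_zsmul, map_nsmul,
    red_tateRep, red_tateRep, ← natCast_zsmul]
  exact frobenius_quadratic_torsion hℓ hgood hA hσ hn _
    (by push_cast; exact pow_smul_tateRed hΔ n v)

theorem tateRep_frobenius_not_scalar {A : ValuationSubring Q̄} {ℓ : ℕ} (hℓ : ℓ.Prime)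
    (hgood : W.IsGoodPrimeFor ℓ) (hne : ℓ ≠ p) (hA : A.LiesOverPrime ℓ) {σ : GQ}
    (hσ : A.IsFrobeniusAt σ ℓ) (c : ℤ_[p]) :
    ∃ v, (tateRep W p hΔ).ρ σ v ≠ c • v := by
  by_contra hall
  push Not at hall
  obtain ⟨j, hj⟩ := frobenius_exists_level_not_scalar W hℓ hgood hA hσ Fact.out hne
  obtain ⟨r, hr⟩ := TateBasis.exists_int_sub_mem j c
  refine hj ⟨r, fun P hP => ?_⟩
  obtain ⟨v, rfl⟩ := exists_tateRed_eq hΔ j hP
  rw [← red_tateRep hΔ σ j v, hall, tateRed_smul hΔ hr]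

omit [Fact p.Prime] in
/-- A non-scalar `2 × 2` matrix over a domain killed by `X² - aX + d` has trace `a` and
determinant `d`. -/
theorem trace_det_of_quadratic_of_nonscalar {R : Type*} [CommRing R] [IsDomain R]
    (M : Matrix (Fin 2) (Fin 2) R) {a d : R} (hM : M * M - a • M + d • 1 = 0)
    (hns : ∀ c : R, M ≠ c • 1) : M.trace = a ∧ M.det = d := by
  have h00 := congrFun (congrFun hM 0) 0
  have h01 := congrFun (congrFun hM 0) 1
  have h10 := congrFun (congrFun hM 1) 0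
  have h11 := congrFun (congrFun hM 1) 1
  simp [Matrix.mul_apply, Fin.sum_univ_two] at h00 h01 h10 h11
  rw [Matrix.trace_fin_two, Matrix.det_fin_two]
  have ht : M 0 0 + M 1 1 = a := by
    by_contra hne
    have hne' : M 0 0 + M 1 1 - a ≠ 0 := sub_ne_zero.mpr hne
    have e01 : M 0 1 = 0 :=
      (mul_eq_zero.mp (show (M 0 0 + M 1 1 - a) * M 0 1 = 0 by linear_combination h01)).resolve_left
        hne'
    have e10 : M 1 0 = 0 :=
      (mul_eq_zero.mp (show (M 0 0 + M 1 1 - a) * M 1 0 = 0 by linear_combination h10)).resolve_left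
        hne'
    have e11 : M 1 1 = M 0 0 := (sub_eq_zero.mp ((mul_eq_zero.mp
      (show (M 0 0 + M 1 1 - a) * (M 1 1 - M 0 0) = 0 by
        linear_combination h11 - h00)).resolve_left hne'))
    refine hns (M 0 0) ?_
    ext i j
    fin_cases i <;> fin_cases j <;> simp [e01, e10, e11]
  exact ⟨ht, by linear_combination -h00 + M 0 0 * ht⟩

theorem tateRep_trace_det_frobenius {A : ValuationSubring Q̄} {ℓ : ℕ} (hℓ : ℓ.Prime)
    (hgood : W.IsGoodPrimeFor ℓ) (hne : ℓ ≠ p) (hA : A.LiesOverPrime ℓ) {σ : GQ}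
    (hσ : A.IsFrobeniusAt σ ℓ) :
    (tateRep W p hΔ).trace σ = W.apOfModel ℓ ∧
      LinearMap.det ((tateRep W p hΔ).ρ σ) = (ℓ : ℤ_[p]) := by
  let b : Module.Basis (Fin 2) ℤ_[p] (tateRep W p hΔ).V := Module.Basis.finTwoProd ℤ_[p]
  set T := (tateRep W p hΔ).ρ σ with hT
  have hM : LinearMap.toMatrix b b (T * T - (W.apOfModel ℓ : ℤ_[p]) • T + (ℓ : ℤ_[p]) • 1) = 0 := by
    rw [show T * T - (W.apOfModel ℓ : ℤ_[p]) • T + (ℓ : ℤ_[p]) • (1 : Module.End _ _) = 0 from
      LinearMap.ext fun v => tateRep_frobenius_quadratic hΔ hℓ hgood hne hA hσ v, map_zero]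
  rw [map_add, map_sub, map_smul, map_smul, LinearMap.toMatrix_mul, LinearMap.toMatrix_one] at hM
  obtain ⟨h1, h2⟩ := trace_det_of_quadratic_of_nonscalar _ hM fun c hc => by
    obtain ⟨v, hv⟩ := tateRep_frobenius_not_scalar hΔ hℓ hgood hne hA hσ c
    refine hv ?_
    have : T = c • 1 := (LinearMap.toMatrix b b).injective (by
      rw [hc, map_smul, LinearMap.toMatrix_one])
    rw [← hT, this, LinearMap.smul_apply, Module.End.one_apply]
  rw [LinearMap.det_toMatrix] at h2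
  rw [← LinearMap.trace_eq_matrix_trace] at h1
  exact ⟨h1, h2⟩

end Fermat.Agent.EC.Rep
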